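import Mathlib.RingTheory.LaurentSeries
import Mathlib.RingTheory.PowerSeries.Exp
import Mathlib.RingTheory.Polynomial.UniqueFactorization
import Mathlib.RingTheory.Derivation.Basic
import Fermat.Agent.SiegelShidlovskii.IncompleteGamma

/-!
# The Euler operator on the field of `z` and `exp z`

`θ = z d/dz` maps the field `K = ℚ(z, exp z)` to itself, and no nontrivial combination of the
`exp (c z) - 1` (distinct integers `c ≠ 0`) is `θ` of an element of `K`; so the exponential
integrals `∑ (c z) ^ n / (n! n)` lie outside `K`.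
-/

set_option autoImplicit false

noncomputable section

namespace FA.ExponentialIntegral

open Finset
open scoped Nat Polynomial

/-- The Laurent series over `ℚ`. -/
abbrev Laurent : Type := LaurentSeries ℚ

/-- The series `E_k = ∑ z ^ n / (n! n ^ k)` over `n ≥ 1`. -/
def eiSeries (k : ℕ) : PowerSeries ℚ :=
  PowerSeries.mk fun n => if n = 0 then 0 else ((n ! : ℚ) * (n : ℚ) ^ k)⁻¹

theorem eiSeries_zero : eiSeries 0 = PowerSeries.exp ℚ - 1 := by
  ext n
  rcases eq_or_ne n 0 with rfl | hn
  · simp [eiSeries]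
  · simp [eiSeries, PowerSeries.coeff_exp, PowerSeries.coeff_one, hn]

theorem X_mul_derivative_eiSeries (k : ℕ) :
    PowerSeries.X * PowerSeries.derivative ℚ (eiSeries (k + 1)) = eiSeries k := by
  ext n
  rcases n with _ | n
  · simp [eiSeries]
  · rw [PowerSeries.coeff_succ_X_mul, PowerSeries.coeff_derivative]
    simp only [eiSeries, PowerSeries.coeff_mk, Nat.succ_ne_zero, if_false, pow_succ]
    push_cast
    field_simp

/-- `θ = z d/dz`, as a map. -/
def eulerFun (f : Laurent) : Laurent :=
  ⟨fun n => (n : ℚ) * f.coeff n,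
    f.isPWO_support.mono (Function.support_mul_subset_right _ f.coeff)⟩

theorem coeff_eulerFun (f : Laurent) (n : ℤ) : (eulerFun f).coeff n = (n : ℚ) * f.coeff n := rfl

theorem eulerFun_add (f g : Laurent) : eulerFun (f + g) = eulerFun f + eulerFun g := by
  ext n
  simp [coeff_eulerFun, mul_add]

theorem eulerFun_mul (f g : Laurent) :
    eulerFun (f * g) = f * eulerFun g + g * eulerFun f := by
  have hs : ∀ h : Laurent, (eulerFun h).support ⊆ h.support := fun h =>
    Function.support_mul_subset_right _ h.coeff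
  ext n
  rw [HahnSeries.coeff_add, mul_comm g, HahnSeries.coeff_mul_right' g.isPWO_support (hs g),
    HahnSeries.coeff_mul_left' f.isPWO_support (hs f), coeff_eulerFun, HahnSeries.coeff_mul,
    ← Finset.sum_add_distrib, Finset.mul_sum]
  refine Finset.sum_congr rfl fun ij hij => ?_
  rw [coeff_eulerFun, coeff_eulerFun, ← (Finset.mem_antidiagonal.1 hij).2.2, Int.cast_add]
  ring

/-- **The Euler derivation.** -/
def euler : Derivation ℤ Laurent Laurent where
  toFun := eulerFun
  map_add' := eulerFun_add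
  map_smul' c f := by
    have hc : eulerFun (c : Laurent) = 0 := by
      ext n
      rw [coeff_eulerFun, ← map_intCast (HahnSeries.C : ℚ →+* Laurent), HahnSeries.C_apply,
        HahnSeries.coeff_single]
      split_ifs with hn <;> simp [hn]
    rw [RingHom.id_apply, Algebra.smul_def, eq_intCast, eulerFun_mul, hc, mul_zero, add_zero,
      zsmul_eq_mul]
  map_one_eq_zero' := by
    have h := eulerFun_mul 1 1
    simp only [one_mul] at h
    exact left_eq_add.1 h
  leibniz' := eulerFun_mul

theorem coeff_euler (f : Laurent) (n : ℤ) : (euler f).coeff n = (n : ℚ) * f.coeff n := rfl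

theorem euler_ofPowerSeries (g : PowerSeries ℚ) :
    euler (HahnSeries.ofPowerSeries ℤ ℚ g) =
      HahnSeries.ofPowerSeries ℤ ℚ (PowerSeries.X * PowerSeries.derivative ℚ g) := by
  ext n
  rw [coeff_euler]
  rcases Int.eq_nat_or_neg n with ⟨k, rfl | rfl⟩
  · rw [HahnSeries.ofPowerSeries_apply_coeff, HahnSeries.ofPowerSeries_apply_coeff]
    rcases k with _ | k
    · simp
    · rw [PowerSeries.coeff_succ_X_mul, PowerSeries.coeff_derivative]
      push_cast
      ring
  · rcases k with _ | k
    · rw [show (-((0 : ℕ) : ℤ)) = ((0 : ℕ) : ℤ) by simp, HahnSeries.ofPowerSeries_apply_coeff,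
        HahnSeries.ofPowerSeries_apply_coeff]
      simp
    · have h : ∀ x : PowerSeries ℚ,
          (HahnSeries.ofPowerSeries ℤ ℚ x).coeff (-((k + 1 : ℕ) : ℤ)) = 0 := fun x => by
        rw [HahnSeries.ofPowerSeries_apply, HahnSeries.embDomain_of_notMem_range]
        rintro ⟨j, hj⟩
        simp at hj
        omega
      rw [h, h, mul_zero]

/-- A series killed by `θ` is a constant. -/
theorem exists_C_of_euler_eq_zero {f : Laurent} (h : euler f = 0) :
    f = HahnSeries.C (f.coeff 0) := by
  ext n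
  rw [HahnSeries.C_apply, HahnSeries.coeff_single]
  split_ifs with hn
  · rw [hn]
  · have h1 := congrArg (fun g => g.coeff n) h
    simp only [coeff_euler, HahnSeries.coeff_zero, mul_eq_zero, Int.cast_eq_zero] at h1
    exact h1.resolve_left hn

/-- The evaluation at `z` and `exp z`. -/
def evExp : (ℚ[X])[X] →+* Laurent :=
  (HahnSeries.ofPowerSeries ℤ ℚ).comp
    (Polynomial.eval₂RingHom Polynomial.coeToPowerSeries.ringHom (PowerSeries.exp ℚ))

theorem evExp_C (a : ℚ[X]) :
    evExp (Polynomial.C a) = HahnSeries.ofPowerSeries ℤ ℚ (a : PowerSeries ℚ) := by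
  simp [evExp]

theorem evExp_X : evExp Polynomial.X = HahnSeries.ofPowerSeries ℤ ℚ (PowerSeries.exp ℚ) := by
  simp [evExp]

/-- **`exp z` is transcendental over the rational functions.** -/
theorem evExp_injective : Function.Injective evExp := by
  rw [injective_iff_map_eq_zero]
  intro P hP
  have h1 : Polynomial.eval₂ Polynomial.coeToPowerSeries.ringHom (PowerSeries.exp ℚ) P = 0 :=
    HahnSeries.ofPowerSeries_injective (hP.trans (map_zero _).symm)
  have h2 := FA.SiegelShidlovskii.phiSeries_eval₂_eq_zero (lam := 1 / 2) (fun t ht => by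
    have h' : ((2 * t : ℤ) : ℚ) = ((1 : ℤ) : ℚ) := by push_cast; linarith
    rw [Int.cast_inj] at h'
    omega) (Polynomial.eval₂RingHom MvPolynomial.C (MvPolynomial.X 1) P) (by
      refine Eq.trans ?_ h1
      rw [Polynomial.coe_eval₂RingHom, ← MvPolynomial.coe_eval₂Hom, Polynomial.hom_eval₂,
        MvPolynomial.eval₂Hom_X']
      congr 1
      exact RingHom.ext fun a => MvPolynomial.eval₂Hom_C _ _ a)
  have h3 := congrArg (MvPolynomial.eval₂Hom Polynomial.C ![0, Polynomial.X]) h2
  rw [map_zero, ← RingHom.comp_apply] at h3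
  refine Eq.trans ?_ h3
  refine (RingHom.congr_fun (Polynomial.ringHom_ext (f := RingHom.id _) (fun a => ?_) ?_) P)
  · simp
  · simp

/-- The lift of `θ` to the polynomials. -/
def thetaPoly (P : (ℚ[X])[X]) : (ℚ[X])[X] :=
  P.sum fun i a => Polynomial.monomial i
    (Polynomial.X * Polynomial.derivative a + (i : ℚ[X]) * Polynomial.X * a)

theorem coeff_thetaPoly (P : (ℚ[X])[X]) (i : ℕ) : (thetaPoly P).coeff i =
    Polynomial.X * Polynomial.derivative (P.coeff i) + (i : ℚ[X]) * Polynomial.X * P.coeff i := by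
  simp only [thetaPoly, Polynomial.sum_def, Polynomial.finsetSum_coeff, Polynomial.coeff_monomial,
    Finset.sum_ite_eq', Polynomial.mem_support_iff]
  split_ifs with h
  · rfl
  · simp [not_not.1 h]

theorem evExp_thetaPoly (P : (ℚ[X])[X]) : euler (evExp P) = evExp (thetaPoly P) := by
  induction P using Polynomial.induction_on' with
  | add p q hp hq =>
    have h : thetaPoly (p + q) = thetaPoly p + thetaPoly q := by
      ext1 i
      simp [coeff_thetaPoly]
      ring
    rw [map_add, map_add, hp, hq, h, map_add]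
  | monomial i a =>
    have h : thetaPoly (Polynomial.monomial i a) = Polynomial.monomial i
        (Polynomial.X * Polynomial.derivative a + (i : ℚ[X]) * Polynomial.X * a) := by
      ext1 j
      rw [coeff_thetaPoly, Polynomial.coeff_monomial, Polynomial.coeff_monomial]
      split_ifs with hj
      · rw [hj]
      · simp
    rw [h, ← Polynomial.C_mul_X_pow_eq_monomial, ← Polynomial.C_mul_X_pow_eq_monomial]
    simp only [RingHom.map_mul, RingHom.map_pow, evExp_C, evExp_X]
    simp only [← RingHom.map_pow, ← RingHom.map_mul]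
    rw [euler_ofPowerSeries]
    refine congrArg _ ?_
    have hn : ∀ k : ℕ, ((k : ℚ[X]) : PowerSeries ℚ) = k := fun k =>
      map_natCast Polynomial.coeToPowerSeries.ringHom k
    rw [Derivation.leibniz, Derivation.leibniz_pow, PowerSeries.derivative_exp,
      PowerSeries.derivative_coe]
    simp only [smul_eq_mul, nsmul_eq_mul, Polynomial.coe_add, Polynomial.coe_mul, Polynomial.coe_X,
      hn]
    rcases i with _ | i
    · simp
    · rw [Nat.add_sub_cancel, pow_succ]
      push_cast
      ring

/-- **The field `ℚ(z, exp z)`.** -/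
def expField : Subfield Laurent :=
  (IsFractionRing.lift evExp_injective : FractionRing (ℚ[X])[X] →+* Laurent).fieldRange

theorem evExp_mem (P : (ℚ[X])[X]) : evExp P ∈ expField :=
  ⟨algebraMap _ _ P, IsFractionRing.lift_algebraMap _ _⟩

theorem exists_div_of_mem {f : Laurent} (hf : f ∈ expField) :
    ∃ A B : (ℚ[X])[X], B ≠ 0 ∧ f = evExp A / evExp B := by
  obtain ⟨x, rfl⟩ := hf
  obtain ⟨A, B, hB, rfl⟩ := IsFractionRing.div_surjective (A := (ℚ[X])[X]) x
  exact ⟨A, B, nonZeroDivisors.ne_zero hB, by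
    rw [map_div₀, IsFractionRing.lift_algebraMap, IsFractionRing.lift_algebraMap]⟩

theorem euler_mem {f : Laurent} (hf : f ∈ expField) : euler f ∈ expField := by
  obtain ⟨A, B, -, rfl⟩ := exists_div_of_mem hf
  rw [Derivation.leibniz_div, smul_eq_mul, smul_eq_mul, smul_eq_mul, evExp_thetaPoly,
    evExp_thetaPoly]
  exact mul_mem (pow_mem (inv_mem (evExp_mem B)) 2)
    (sub_mem (mul_mem (evExp_mem B) (evExp_mem _)) (mul_mem (evExp_mem A) (evExp_mem _)))

/-- `θ g + λ z g = c` has no solution `g = a / z ^ j`. -/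
theorem no_rational_solution {a : ℚ[X]} {j : ℕ} {c lam : ℚ} (hc : c ≠ 0)
    (h : Polynomial.X * Polynomial.derivative a + Polynomial.C lam * (Polynomial.X * a) -
      (j : ℚ[X]) * a = Polynomial.C c * Polynomial.X ^ j) : False := by
  have hco : ∀ n : ℕ, ((n + 1 : ℕ) - (j : ℚ)) * a.coeff (n + 1) + lam * a.coeff n =
      if n + 1 = j then c else 0 := fun n => by
    have h1 := congrArg (fun p : ℚ[X] => p.coeff (n + 1)) h
    simp only [Polynomial.coeff_sub, Polynomial.coeff_add, Polynomial.coeff_X_mul,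
      Polynomial.coeff_natCast_mul, Polynomial.coeff_derivative, Polynomial.coeff_C_mul,
      Polynomial.coeff_X_pow, mul_ite, mul_one, mul_zero] at h1
    rw [← h1]
    push_cast
    ring
  have h0 : -(j : ℚ) * a.coeff 0 = if 0 = j then c else 0 := by
    have h1 := congrArg (fun p : ℚ[X] => p.coeff 0) h
    simp only [Polynomial.coeff_sub, Polynomial.coeff_add, Polynomial.coeff_X_mul_zero,
      Polynomial.coeff_natCast_mul, Polynomial.coeff_C_mul, Polynomial.coeff_X_pow, mul_ite,
      mul_one, mul_zero] at h1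
    rw [← h1]
    ring
  rcases j with _ | j
  · simp [eq_comm, hc] at h0
  have hlow : ∀ n ≤ j, a.coeff n = 0 := fun n => by
    induction n with
    | zero =>
      intro _
      rw [if_neg (Nat.succ_ne_zero j).symm, mul_eq_zero, neg_eq_zero, Nat.cast_eq_zero] at h0
      exact h0.resolve_left (Nat.succ_ne_zero j)
    | succ n ih =>
      intro hn
      have h1 := hco n
      rw [if_neg (by omega), ih (by omega), mul_zero, add_zero, mul_eq_zero] at h1
      refine h1.resolve_left (sub_ne_zero.2 ?_)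
      exact_mod_cast (show n + 1 ≠ j + 1 by omega)
  have h1 := hco j
  rw [if_pos rfl, hlow j le_rfl] at h1
  simp [eq_comm, hc] at h1

/-- A polynomial dividing its image under the lift of `θ` is a monomial. -/
theorem eq_monomial_of_dvd_thetaPoly {B : (ℚ[X])[X]} (hB : B ≠ 0) (hdvd : B ∣ thetaPoly B) :
    ∃ (i j : ℕ) (c : ℚ), c ≠ 0 ∧
      B = Polynomial.monomial i (Polynomial.C c * Polynomial.X ^ j) := by
  obtain ⟨Q, hQ⟩ := hdvd
  -- `B` is a monomial
  have hQ0 : Q = Polynomial.C (Q.coeff 0) := by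
    rcases eq_or_ne Q 0 with rfl | hQne
    · simp
    refine Polynomial.eq_C_of_natDegree_eq_zero ?_
    have h1 : (thetaPoly B).natDegree ≤ B.natDegree :=
      Polynomial.natDegree_le_iff_coeff_eq_zero.2 fun n hn => by
        rw [coeff_thetaPoly, Polynomial.coeff_eq_zero_of_natDegree_lt hn]
        simp
    rw [hQ, Polynomial.natDegree_mul hB hQne] at h1
    omega
  obtain ⟨q, hq⟩ : ∃ q, q = Q.coeff 0 := ⟨_, rfl⟩
  rw [← hq] at hQ0
  have hco : ∀ i, Polynomial.X * Polynomial.derivative (B.coeff i) +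
      (i : ℚ[X]) * Polynomial.X * B.coeff i = q * B.coeff i := fun i => by
    rw [← coeff_thetaPoly, hQ, hQ0, mul_comm B, Polynomial.coeff_C_mul]
  obtain ⟨i, hi⟩ : ∃ i, B.coeff i ≠ 0 := ⟨_, Polynomial.leadingCoeff_ne_zero.2 hB⟩
  have hdeg : ∀ i, B.coeff i ≠ 0 → Polynomial.natDegree (q - (i : ℚ[X]) * Polynomial.X) = 0 :=
    fun i hi => by
    rcases eq_or_ne (q - (i : ℚ[X]) * Polynomial.X) 0 with h0 | h0
    · simp [h0]
    have h1 : (Polynomial.X * Polynomial.derivative (B.coeff i)).natDegree ≤
        (B.coeff i).natDegree := Polynomial.natDegree_le_iff_coeff_eq_zero.2 fun n hn => by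
      rcases n with _ | n
      · omega
      · rw [Polynomial.coeff_X_mul, Polynomial.coeff_derivative,
          Polynomial.coeff_eq_zero_of_natDegree_lt hn, zero_mul]
    rw [show Polynomial.X * Polynomial.derivative (B.coeff i) =
      (q - (i : ℚ[X]) * Polynomial.X) * B.coeff i by linear_combination hco i,
      Polynomial.natDegree_mul h0 hi] at h1
    omega
  have hone : ∀ l, B.coeff l ≠ 0 → l = i := fun l hl => by
    have h1 := Polynomial.coeff_eq_zero_of_natDegree_lt
      (show (q - (i : ℚ[X]) * Polynomial.X).natDegree < 1 by rw [hdeg i hi]; exact one_pos)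
    have h2 := Polynomial.coeff_eq_zero_of_natDegree_lt
      (show (q - (l : ℚ[X]) * Polynomial.X).natDegree < 1 by rw [hdeg l hl]; exact one_pos)
    simp only [Polynomial.coeff_sub, Polynomial.coeff_natCast_mul, Polynomial.coeff_X_one,
      mul_one] at h1 h2
    exact_mod_cast (show (l : ℚ) = i by linarith)
  obtain ⟨γ, hγ⟩ := Polynomial.natDegree_eq_zero.1 (hdeg i hi)
  have heq : ∀ n : ℕ, ((n : ℚ) - γ) * (B.coeff i).coeff n = 0 := fun n => by
    have h1 := congrArg (fun p : ℚ[X] => p.coeff n)
      (show Polynomial.X * Polynomial.derivative (B.coeff i) = Polynomial.C γ * B.coeff i by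
        linear_combination hco i - B.coeff i * hγ)
    rcases n with _ | n
    · simp at h1
      simp [h1]
    · simp only [Polynomial.coeff_X_mul, Polynomial.coeff_derivative,
        Polynomial.coeff_C_mul] at h1
      push_cast
      linear_combination h1
  obtain ⟨j, hj⟩ : ∃ j, (B.coeff i).coeff j ≠ 0 := ⟨_, Polynomial.leadingCoeff_ne_zero.2 hi⟩
  obtain rfl : γ = j := (sub_eq_zero.1 ((mul_eq_zero.1 (heq j)).resolve_right hj)).symm
  obtain ⟨c, hc⟩ : ∃ c, c = (B.coeff i).coeff j := ⟨_, rfl⟩
  have hb : B.coeff i = Polynomial.C c * Polynomial.X ^ j := by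
    ext n
    rw [Polynomial.coeff_C_mul, Polynomial.coeff_X_pow]
    split_ifs with hn
    · rw [hn, mul_one, hc]
    · rw [mul_zero]
      exact (mul_eq_zero.1 (heq n)).resolve_left (sub_ne_zero.2 (Nat.cast_injective.ne hn))
  have hBmono : B = Polynomial.monomial i (B.coeff i) := by
    ext1 l
    rw [Polynomial.coeff_monomial]
    split_ifs with hl
    · rw [hl]
    · by_contra hne'
      exact hl (hone l hne').symm
  refine ⟨i, j, c, hc ▸ hj, ?_⟩
  rw [← hb]
  exact hBmono

/-- `exp (c z)`. -/
def expMul (c : ℤ) : Laurent :=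
  HahnSeries.ofPowerSeries ℤ ℚ (PowerSeries.rescale (c : ℚ) (PowerSeries.exp ℚ))

theorem expMul_add (c d : ℤ) : expMul c * expMul d = expMul (c + d) := by
  rw [expMul, expMul, expMul, ← map_mul, PowerSeries.exp_mul_exp_eq_exp_add, Int.cast_add]

theorem expMul_natCast (n : ℕ) : expMul n = evExp (Polynomial.X ^ n) := by
  rw [map_pow, evExp_X, ← map_pow, PowerSeries.exp_pow_eq_rescale_exp, expMul, Int.cast_natCast]

theorem expMul_zero : expMul 0 = 1 := by
  simpa using expMul_natCast 0

theorem expMul_mem (c : ℤ) : expMul c ∈ expField := by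
  rcases Int.eq_nat_or_neg c with ⟨n, rfl | rfl⟩
  · rw [expMul_natCast]
    exact evExp_mem _
  · have h : expMul (-(n : ℤ)) = (expMul (n : ℤ))⁻¹ :=
      eq_inv_of_mul_eq_one_left (by rw [expMul_add, neg_add_cancel, expMul_zero])
    rw [h, expMul_natCast]
    exact inv_mem (evExp_mem _)

/-- **No combination of the `(exp (c z) - 1) / z` has a primitive in `ℚ(z, exp z)`.** -/
theorem coeff_eq_zero_of_euler_eq {ι : Type*} [Fintype ι] {c : ι → ℤ} (hc0 : ∀ i, c i ≠ 0)
    (hci : Function.Injective c) {a : ι → ℚ} {r : Laurent} (hr : r ∈ expField)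
    (h : euler r = ∑ i, HahnSeries.C (a i) * (expMul (c i) - 1)) : a = 0 := by
  classical
  obtain ⟨A₀, B₀, hB₀, hAB⟩ := exists_div_of_mem hr
  obtain ⟨B, A, d, hrel, hBd, hAd⟩ := UniqueFactorizationMonoid.exists_reduced_factors B₀ hB₀ A₀
  have hB : B ≠ 0 := right_ne_zero_of_mul (hBd.symm ▸ hB₀)
  have hd : d ≠ 0 := left_ne_zero_of_mul (hBd.symm ▸ hB₀)
  have hne : ∀ {P : (ℚ[X])[X]}, P ≠ 0 → evExp P ≠ 0 := fun hP h =>
    hP (evExp_injective (h.trans (map_zero _).symm))
  have hval : r = evExp A / evExp B := by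
    rw [hAB, ← hBd, ← hAd, map_mul, map_mul, mul_div_mul_left _ _ (hne hd)]
  -- the equation shifted into the polynomials
  obtain ⟨N, hN⟩ : ∃ N : ℕ, ∀ i, 0 ≤ c i + N :=
    ⟨univ.sup fun i => (c i).natAbs, fun i => by
      have := Finset.le_sup (f := fun i => (c i).natAbs) (mem_univ i)
      omega⟩
  choose e he using fun i => (⟨(c i + N).toNat, (Int.toNat_of_nonneg (hN i))⟩ :
    ∃ e : ℕ, (e : ℤ) = c i + N)
  obtain ⟨R, hR⟩ : ∃ R : (ℚ[X])[X], R = ∑ i, Polynomial.C (Polynomial.C (a i)) *
      (Polynomial.X ^ e i - Polynomial.X ^ N) := ⟨_, rfl⟩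
  have hRev : evExp R = euler r * expMul N := by
    rw [h, hR, map_sum, Finset.sum_mul]
    refine Finset.sum_congr rfl fun i _ => ?_
    rw [map_mul, map_sub, ← expMul_natCast, ← expMul_natCast, evExp_C, Polynomial.coe_C,
      HahnSeries.ofPowerSeries_C, he i, mul_assoc, sub_mul, one_mul, expMul_add]
  have hid : (B * thetaPoly A - A * thetaPoly B) * Polynomial.X ^ N = R * B ^ 2 := by
    refine evExp_injective ?_
    rw [hval, Derivation.leibniz_div, smul_eq_mul, smul_eq_mul, smul_eq_mul, evExp_thetaPoly,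
      evExp_thetaPoly, expMul_natCast] at hRev
    have := hne hB
    rw [map_mul, map_sub, map_mul, map_mul, map_mul, map_pow evExp B, hRev]
    field_simp
  -- the denominator is a monomial
  obtain ⟨B₁, hB₁, hXB₁⟩ := Polynomial.exists_eq_pow_rootMultiplicity_mul_and_not_dvd B hB 0
  rw [map_zero, sub_zero] at hB₁ hXB₁
  obtain ⟨v, hv⟩ : ∃ v, v = B.rootMultiplicity 0 := ⟨_, rfl⟩
  rw [← hv] at hB₁
  have hB₁0 : B₁ ≠ 0 := fun h0 => hB (by rw [hB₁, h0, mul_zero])
  have hcop : IsRelPrime B₁ (Polynomial.X : (ℚ[X])[X]) :=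
    (Polynomial.prime_X.irreducible.isRelPrime_iff_not_dvd.2 hXB₁).symm
  have hθB : thetaPoly B =
      Polynomial.X ^ v * (thetaPoly B₁ + Polynomial.C ((v : ℚ[X]) * Polynomial.X) * B₁) := by
    ext1 n
    rw [coeff_thetaPoly, hB₁, Polynomial.coeff_X_pow_mul', Polynomial.coeff_X_pow_mul']
    split_ifs with hn
    · obtain ⟨l, rfl⟩ := Nat.exists_eq_add_of_le' hn
      rw [Nat.add_sub_cancel, Polynomial.coeff_add, Polynomial.coeff_C_mul, coeff_thetaPoly]
      push_cast
      ring
    · simp
  have hdvd : B₁ ∣ thetaPoly B₁ := by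
    have h1 : B₁ ∣ A * thetaPoly B * Polynomial.X ^ N :=
      ⟨Polynomial.X ^ v * (thetaPoly A * Polynomial.X ^ N - R * B), by
        linear_combination -hid + (thetaPoly A * Polynomial.X ^ N - R * B) * hB₁⟩
    have hrel₁ : IsRelPrime B₁ A := hrel.of_dvd_left ⟨_, hB₁.trans (mul_comm _ _)⟩
    have h2 := (hcop.pow_right (n := N)).dvd_of_dvd_mul_right h1
    have h3 := hrel₁.dvd_of_dvd_mul_left h2
    rw [hθB] at h3
    exact (dvd_add_left (dvd_mul_left B₁ _)).1 ((hcop.pow_right (n := v)).dvd_of_dvd_mul_left h3)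
  obtain ⟨i₀, j, γ, hγ, hB₁m⟩ := eq_monomial_of_dvd_thetaPoly hB₁0 hdvd
  obtain rfl : i₀ = 0 := by
    by_contra hi
    refine hXB₁ (hB₁m ▸ ?_)
    rw [← Polynomial.C_mul_X_pow_eq_monomial]
    exact dvd_mul_of_dvd_right (dvd_pow_self _ hi) _
  have hBv : B = Polynomial.monomial v (Polynomial.C γ * Polynomial.X ^ j) := by
    rw [hB₁, hB₁m, Polynomial.monomial_zero_left, mul_comm, Polynomial.C_mul_X_pow_eq_monomial]
  obtain ⟨S, hS⟩ : ∃ S, S = thetaPoly A -
      Polynomial.C ((j : ℚ[X]) + (v : ℚ[X]) * Polynomial.X) * A := ⟨_, rfl⟩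
  have hθB' : thetaPoly B = Polynomial.C ((j : ℚ[X]) + (v : ℚ[X]) * Polynomial.X) * B := by
    ext1 n
    rw [coeff_thetaPoly, Polynomial.coeff_C_mul, hBv, Polynomial.coeff_monomial]
    split_ifs with hn
    · subst hn
      rcases j with _ | j
      · simp
      · rw [Polynomial.derivative_C_mul_X_pow, Nat.add_sub_cancel, map_mul, map_natCast]
        push_cast
        ring
    · simp
  have hid' : S * Polynomial.X ^ N = R * B := mul_left_cancel₀ hB (by
    rw [hθB'] at hid
    linear_combination hid + B * Polynomial.X ^ N * hS)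
  funext i
  by_contra hi
  have hco := congrArg (fun P : (ℚ[X])[X] => P.coeff (v + e i)) hid'
  have hRi : R.coeff (e i) = Polynomial.C (a i) := by
    have heN : e i ≠ N := fun h' => hc0 i (by
      have := he i
      rw [h'] at this
      omega)
    rw [hR, Polynomial.finsetSum_coeff, Finset.sum_eq_single i (fun l _ hl => ?_)
      (fun h' => absurd (mem_univ _) h'), Polynomial.coeff_C_mul, Polynomial.coeff_sub,
      Polynomial.coeff_X_pow, Polynomial.coeff_X_pow, if_pos rfl, if_neg heN, sub_zero, mul_one]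
    have hne' : e i ≠ e l := fun h' => hl (hci (by
      have h1 := he i
      have h2 := he l
      rw [h'] at h1
      omega))
    rw [Polynomial.coeff_C_mul, Polynomial.coeff_sub, Polynomial.coeff_X_pow,
      Polynomial.coeff_X_pow, if_neg hne', if_neg heN, sub_zero, mul_zero]
  simp only [hBv, ← Polynomial.C_mul_X_pow_eq_monomial, ← mul_assoc] at hco
  rw [Polynomial.coeff_mul_X_pow', Polynomial.coeff_mul_X_pow', if_pos (Nat.le_add_right v (e i)),
    Nat.add_sub_cancel_left, Polynomial.coeff_mul_C, hRi] at hco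
  split_ifs at hco with hNe
  · refine no_rational_solution (a := A.coeff (v + e i - N)) (j := j) (lam := (c i : ℚ))
      (mul_ne_zero hγ hi) ?_
    have hl : ((v + e i - N : ℕ) : ℚ) = v + c i := by
      rw [Nat.cast_sub hNe, Nat.cast_add,
        show (e i : ℚ) = (c i : ℚ) + N by exact_mod_cast he i]
      ring
    rw [hS, Polynomial.coeff_sub, coeff_thetaPoly, Polynomial.coeff_C_mul,
      ← map_natCast Polynomial.C (v + e i - N), hl, map_add, map_natCast] at hco
    rw [map_mul]
    linear_combination hco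
  · exact mul_ne_zero (Polynomial.C_ne_zero.2 hi)
      (mul_ne_zero (Polynomial.C_ne_zero.2 hγ) (pow_ne_zero _ Polynomial.X_ne_zero)) hco.symm

end FA.ExponentialIntegral
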