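import Fermat.Agent.ExponentialIntegral.Euler
import Fermat.Agent.BeukersTheorem.Solutions

/-!
# The independence of `exp` and the iterated exponential integrals

For distinct integers `c a ≠ 0` the derivation `θ Y (a, 0) = exp (c a z) - 1`,
`θ Y (a, k + 1) = Y (a, k)` over `K = ℚ(z, exp z)` kills constants only, so there is no relation
between the `E_k (c a z)`.
-/

set_option autoImplicit false

noncomputable section

namespace FA.ExponentialIntegral

open Finset MvPolynomial
open FA.BeukersTheorem (delta coeffDer coeff_coeffDer delta_add delta_mul coeffDer_monomial)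
open scoped Polynomial

variable {m r s : ℕ} (e : Fin m ≃ Fin r × Fin s) (c : Fin r → ℤ)

instance laurentCharZero : CharZero Laurent :=
  charZero_of_injective_ringHom (HahnSeries.C : ℚ →+* Laurent).injective

theorem ratCast_eq_C (q : ℚ) : (q : Laurent) = HahnSeries.C q :=
  (eq_ratCast (HahnSeries.C : ℚ →+* Laurent) q).symm

theorem coeff_zero_ratCast (q : ℚ) : (q : Laurent).coeff 0 = q := by
  rw [ratCast_eq_C, HahnSeries.C_apply, HahnSeries.coeff_single_same]

/-- `θ` on `K`. -/
def eulerK (a : expField) : expField := ⟨euler a, euler_mem a.2⟩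

theorem eulerK_add (a b : expField) : eulerK (a + b) = eulerK a + eulerK b :=
  Subtype.ext (map_add euler (a : Laurent) (b : Laurent))

theorem eulerK_mul (a b : expField) : eulerK (a * b) = eulerK a * b + a * eulerK b := by
  refine Subtype.ext ?_
  change euler ((a : Laurent) * (b : Laurent)) =
    euler (a : Laurent) * (b : Laurent) + (a : Laurent) * euler (b : Laurent)
  rw [Derivation.leibniz, smul_eq_mul, smul_eq_mul]
  ring

theorem eulerK_zero : eulerK 0 = 0 := Subtype.ext (map_zero euler)

theorem eulerK_natCast (n : ℕ) : eulerK (n : expField) = 0 := by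
  refine Subtype.ext ?_
  change euler (((n : expField) : Laurent)) = 0
  simp

theorem X_mul_derivative_rescale (a : ℚ) (g : PowerSeries ℚ) :
    PowerSeries.X * PowerSeries.derivative ℚ (PowerSeries.rescale a g) =
      PowerSeries.rescale a (PowerSeries.X * PowerSeries.derivative ℚ g) := by
  ext n
  rcases n with _ | n
  · simp
  · simp only [PowerSeries.coeff_succ_X_mul, PowerSeries.coeff_derivative,
      PowerSeries.coeff_rescale]
    ring

/-- The series `E_(k + 1) (c a z)` of the index `i = (a, k)`. -/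
def multSeries (i : Fin m) : Laurent :=
  HahnSeries.ofPowerSeries ℤ ℚ
    (PowerSeries.rescale (c (e i).1 : ℚ) (eiSeries (((e i).2 : ℕ) + 1)))

/-- `exp (c z) - 1` in `K`. -/
def expBase (k : ℤ) : expField := ⟨expMul k - 1, sub_mem (expMul_mem k) (one_mem _)⟩

theorem coe_expBase (k : ℤ) : (expBase k : Laurent) = expMul k - 1 := rfl

theorem coeff_zero_expBase (k : ℤ) : (expBase k : Laurent).coeff 0 = 0 := by
  rw [coe_expBase, HahnSeries.coeff_sub, expMul, show (0 : ℤ) = ((0 : ℕ) : ℤ) from rfl,
    HahnSeries.ofPowerSeries_apply_coeff, PowerSeries.coeff_rescale]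
  simp

/-- The forms of the system `θ Y (a, 0) = exp (c a z) - 1`, `θ Y (a, k + 1) = Y (a, k)`. -/
def eiLin (i : Fin m) : MvPolynomial (Fin m) expField :=
  if ((e i).2 : ℕ) = 0 then C (expBase (c (e i).1))
  else X (e.symm ((e i).1, ⟨((e i).2 : ℕ) - 1, Nat.lt_of_le_of_lt (Nat.sub_le _ _) (e i).2.2⟩))

/-- The derivation of the system. -/
def eiDelta (Q : MvPolynomial (Fin m) expField) : MvPolynomial (Fin m) expField :=
  delta eulerK 1 (eiLin e c) Q

/-- The evaluation at the series `E_(k + 1) (c a z)`. -/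
def eiEval : MvPolynomial (Fin m) expField →+* Laurent :=
  eval₂Hom expField.subtype (multSeries e c)

theorem eiDelta_C (a : expField) :
    eiDelta e c (C a : MvPolynomial (Fin m) expField) = C (eulerK a) := by
  rw [eiDelta, delta, ← monomial_zero', coeffDer_monomial eulerK_zero]
  simp

theorem eiDelta_X (i : Fin m) : eiDelta e c (X i) = eiLin e c i := by
  rw [eiDelta, delta, X, coeffDer_monomial eulerK_zero,
    show eulerK 1 = 0 from by simpa using eulerK_natCast 1, map_zero, mul_zero, zero_add,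
    Finset.sum_eq_single i (fun l _ hl => ?_) (fun h => absurd (mem_univ _) h)]
  · rw [← X, pderiv_X_self, mul_one]
  · rw [← X, pderiv_X_of_ne (Ne.symm hl), mul_zero]

theorem euler_multSeries (i : Fin m) : euler (multSeries e c i) = eiEval e c (eiLin e c i) := by
  rw [multSeries, euler_ofPowerSeries, X_mul_derivative_rescale, X_mul_derivative_eiSeries, eiLin,
    eiEval]
  split_ifs with h
  · rw [eval₂Hom_C, h, eiSeries_zero, map_sub, map_sub, map_one, map_one, Subfield.coe_subtype,
      coe_expBase, expMul]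
  · rw [eval₂Hom_X', multSeries, Equiv.apply_symm_apply,
      Nat.sub_add_cancel (Nat.one_le_iff_ne_zero.2 h)]

theorem eiEval_eiDelta (Q : MvPolynomial (Fin m) expField) :
    eiEval e c (eiDelta e c Q) = euler (eiEval e c Q) := by
  induction Q using MvPolynomial.induction_on with
  | C a =>
    rw [eiDelta_C, eiEval, eval₂Hom_C, eval₂Hom_C]
    rfl
  | add p r hp hr =>
    rw [eiDelta] at hp hr ⊢
    rw [delta_add eulerK_add, map_add, hp, hr, map_add, map_add]
  | mul_X p i hp =>
    have h1 : eiEval e c (eiDelta e c (X i)) = euler (eiEval e c (X i)) := by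
      rw [eiDelta_X, ← euler_multSeries, eiEval, eval₂Hom_X']
    rw [eiDelta] at hp h1 ⊢
    rw [delta_mul eulerK_add eulerK_mul, map_add, map_mul, map_mul, hp, h1, map_mul,
      Derivation.leibniz, smul_eq_mul, smul_eq_mul]
    ring

theorem pderiv_coeffDer (j : Fin m) (Q : MvPolynomial (Fin m) expField) :
    pderiv j (coeffDer eulerK Q) = coeffDer eulerK (pderiv j Q) := by
  ext μ
  rw [coeff_pderiv, coeff_coeffDer eulerK_zero, coeff_coeffDer eulerK_zero, coeff_pderiv,
    eulerK_mul, eulerK_add, eulerK_natCast, show eulerK 1 = 0 from by simpa using eulerK_natCast 1,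
    add_zero, mul_zero, add_zero]

theorem pderiv_eiDelta (j : Fin m) (Q : MvPolynomial (Fin m) expField) :
    pderiv j (eiDelta e c Q) =
      eiDelta e c (pderiv j Q) + ∑ i, pderiv j (eiLin e c i) * pderiv i Q := by
  have hcomm : ∀ i, pderiv j (pderiv i Q) = pderiv i (pderiv j Q) := fun i => by
    ext μ
    rw [coeff_pderiv, coeff_pderiv, coeff_pderiv, coeff_pderiv, add_right_comm μ]
    rcases eq_or_ne i j with rfl | h
    · rfl
    · simp [Finsupp.single_eq_of_ne h, Finsupp.single_eq_of_ne (Ne.symm h)]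
      ring_nf
  simp only [eiDelta, delta, map_one, one_mul, map_add, map_sum, pderiv_coeffDer,
    Derivation.leibniz, smul_eq_mul, hcomm, Finset.sum_add_distrib]
  simp only [mul_comm (pderiv _ Q)]
  abel

theorem totalDegree_pderiv_le (j : Fin m) {Q : MvPolynomial (Fin m) expField} {n : ℕ}
    (h : Q.totalDegree ≤ n + 1) : (pderiv j Q).totalDegree ≤ n := by
  refine Finset.sup_le fun μ hμ => ?_
  rw [mem_support_iff, coeff_pderiv] at hμ
  have h1 := (MvPolynomial.le_totalDegree (mem_support_iff.2 (left_ne_zero_of_mul hμ))).trans h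
  rw [Finsupp.sum_add_index' (fun _ => rfl) (fun _ _ _ => rfl), Finsupp.sum_single_index rfl] at h1
  omega

theorem eq_C_of_pderiv_eq_zero {Q : MvPolynomial (Fin m) expField} (h : ∀ i, pderiv i Q = 0) :
    Q = C (Q.coeff 0) := by
  classical
  refine MvPolynomial.ext _ _ fun μ => ?_
  rw [coeff_C]
  split_ifs with hμ
  · rw [hμ]
  · obtain ⟨i, hi⟩ : ∃ i, μ i ≠ 0 := by
      by_contra hall
      push Not at hall
      exact hμ (Finsupp.ext hall).symm
    have h1 := congrArg (fun w => coeff (μ - Finsupp.single i 1) w) (h i)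
    simp only [coeff_pderiv, coeff_zero,
      tsub_add_cancel_of_le (Finsupp.single_le_iff.2 (Nat.one_le_iff_ne_zero.2 hi))] at h1
    refine (mul_eq_zero.1 h1).resolve_right ?_
    exact Nat.cast_add_one_ne_zero _

theorem coeff_zero_euler (a : Laurent) : (euler a).coeff 0 = 0 := by
  rw [coeff_euler, Int.cast_zero, zero_mul]

theorem eq_ratCast_of_eulerK_eq_zero {x : expField} (h : eulerK x = 0) : ∃ q : ℚ, x = q := by
  refine ⟨(x : Laurent).coeff 0, Subtype.ext ?_⟩
  have h1 := exists_C_of_euler_eq_zero (congrArg Subtype.val h : euler (x : Laurent) = 0)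
  rw [SubfieldClass.coe_ratCast, ratCast_eq_C]
  exact h1

variable (hc0 : ∀ a, c a ≠ 0) (hci : Function.Injective c)

include hc0 hci

/-- **The derivation kills the constants only.** -/
theorem eq_C_of_eiDelta_eq : ∀ (n : ℕ) (Q : MvPolynomial (Fin m) expField), Q.totalDegree ≤ n →
    ∀ a : ℚ, eiDelta e c Q = C (a : expField) → a = 0 ∧ ∃ x, Q = C x := by
  intro n
  induction n with
  | zero =>
    intro Q hQ a ha
    rw [nonpos_iff_eq_zero, totalDegree_eq_zero_iff_eq_C] at hQ
    refine ⟨?_, _, hQ⟩
    rw [hQ, eiDelta_C] at ha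
    have h := congrArg (fun x : expField => ((x : Laurent)).coeff 0) (C_injective _ _ ha)
    simp only [eulerK, coeff_zero_euler] at h
    simpa [coeff_zero_ratCast] using h.symm
  | succ n ih =>
    intro Q hQ a ha
    classical
    have hlin : ∀ i j, ((e i).1 ≠ (e j).1 ∨ ((e i).2 : ℕ) ≠ ((e j).2 : ℕ) + 1) →
        pderiv j (eiLin e c i) = 0 := fun i j hij => by
      rw [eiLin]
      split_ifs with h0
      · exact pderiv_C
      · refine pderiv_X_of_ne fun h' => ?_
        have h1 := congrArg e h'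
        rw [Equiv.apply_symm_apply, Prod.ext_iff] at h1
        rcases hij with h | h
        · exact h h1.1
        · have h2 := congrArg Fin.val h1.2
          simp at h2
          omega
    have hnext : ∀ (j : Fin m) (h : ((e j).2 : ℕ) + 1 < s),
        C (0 : expField) = eiDelta e c (pderiv j Q) +
          pderiv (e.symm ((e j).1, ⟨((e j).2 : ℕ) + 1, h⟩)) Q := fun j h => by
      have h1 := pderiv_eiDelta e c j Q
      rw [ha, pderiv_C, Finset.sum_eq_single (e.symm ((e j).1, ⟨((e j).2 : ℕ) + 1, h⟩))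
        (fun i _ hi => ?_) (fun h' => absurd (mem_univ _) h'), eiLin] at h1
      · simp only [Equiv.apply_symm_apply, Nat.succ_ne_zero, if_false, Nat.add_sub_cancel,
          Fin.eta, Prod.mk.eta, Equiv.symm_apply_apply, pderiv_X_self, one_mul] at h1
        rw [map_zero]
        exact h1
      · rw [hlin i j ?_, zero_mul]
        by_contra hij
        push Not at hij
        exact hi (e.injective
          (by rw [Equiv.apply_symm_apply]; exact Prod.ext hij.1 (Fin.ext hij.2)))
    -- the derivatives are constants, the higher ones zero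
    have key : ∀ d, ∀ j : Fin m, s ≤ ((e j).2 : ℕ) + d + 1 →
        ∃ q : ℚ, pderiv j Q = C (q : expField) ∧ (((e j).2 : ℕ) ≠ 0 → q = 0) := by
      intro d
      induction d using Nat.strong_induction_on with
      | _ d ihd =>
      intro j hj
      obtain ⟨b, hb⟩ : ∃ b : ℚ, eiDelta e c (pderiv j Q) = C (b : expField) := by
        by_cases hs : ((e j).2 : ℕ) + 1 < s
        · obtain ⟨q, hq, -⟩ := ihd (d - 1) (by omega)
            (e.symm ((e j).1, ⟨((e j).2 : ℕ) + 1, hs⟩))
            (by simp only [Equiv.apply_symm_apply]; omega)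
          refine ⟨-q, ?_⟩
          have h := hnext j hs
          rw [hq, map_zero] at h
          rw [Rat.cast_neg, map_neg]
          exact eq_neg_of_add_eq_zero_left h.symm
        · refine ⟨0, ?_⟩
          have h := pderiv_eiDelta e c j Q
          rw [ha, pderiv_C, Finset.sum_eq_zero (fun i _ => ?_), add_zero] at h
          · rw [Rat.cast_zero, map_zero, ← h]
          · rw [hlin i j (Or.inr fun h' => hs (h' ▸ (e i).2.2)), zero_mul]
      obtain ⟨hb0, x, hx⟩ := ih _ (totalDegree_pderiv_le j hQ) b hb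
      rw [hx, eiDelta_C, hb0, Rat.cast_zero] at hb
      obtain ⟨q, rfl⟩ := eq_ratCast_of_eulerK_eq_zero (C_injective _ _ hb)
      refine ⟨q, hx, fun hj0 => ?_⟩
      -- the previous derivative
      obtain ⟨j', hj'⟩ : ∃ j', j' = e.symm ((e j).1,
          ⟨((e j).2 : ℕ) - 1, Nat.lt_of_le_of_lt (Nat.sub_le _ _) (e j).2.2⟩) := ⟨_, rfl⟩
      have hlev : ((e j').2 : ℕ) + 1 = ((e j).2 : ℕ) := by
        rw [hj', Equiv.apply_symm_apply]
        exact Nat.sub_add_cancel (Nat.one_le_iff_ne_zero.2 hj0)
      have h := hnext j' (hlev ▸ (e j).2.2)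
      rw [show e.symm ((e j').1, (⟨((e j').2 : ℕ) + 1, hlev ▸ (e j).2.2⟩ : Fin s)) = j from
        e.symm_apply_eq.2 (Prod.ext (by simp [hj']) (Fin.ext hlev)), hx, map_zero] at h
      exact neg_eq_zero.1 ((ih _ (totalDegree_pderiv_le j' hQ) (-q) (by
        rw [Rat.cast_neg, map_neg]
        exact eq_neg_of_add_eq_zero_left h.symm)).1)
    choose q hq hq0 using fun j => key s j (by omega)
    obtain ⟨Q', hQ'⟩ : ∃ Q', Q' = Q - ∑ i, C (q i : expField) * X i := ⟨_, rfl⟩
    have hzero : ∀ i, pderiv i Q' = 0 := fun i => by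
      rw [hQ', map_sub, map_sum, hq i, Finset.sum_eq_single i (fun l _ hl => ?_)
        (fun h => absurd (mem_univ _) h), pderiv_C_mul, pderiv_X_self, mul_one, sub_self]
      rw [pderiv_C_mul, pderiv_X_of_ne hl, mul_zero]
    obtain ⟨x, hx⟩ : ∃ x, Q' = C x := ⟨_, eq_C_of_pderiv_eq_zero hzero⟩
    have hQe : Q = C x + ∑ i, C (q i : expField) * X i := by rw [← hx, hQ', sub_add_cancel]
    have hθ := congrArg (eiEval e c) ha
    rw [eiEval_eiDelta, hQe] at hθ
    simp only [eiEval, map_add, map_sum, map_mul, eval₂Hom_C, eval₂Hom_X', map_ratCast,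
      Subfield.coe_subtype, euler_multSeries, Derivation.leibniz, smul_eq_mul] at hθ
    have hq' : ∀ i, euler ((q i : ℚ) : Laurent) = 0 := fun i => by
      ext n
      rw [coeff_euler, ratCast_eq_C, HahnSeries.C_apply, HahnSeries.coeff_single]
      split_ifs with hn <;> simp [hn]
    simp only [hq', mul_zero, add_zero] at hθ
    have hterm : ∀ i, (q i : Laurent) * eiEval e c (eiLin e c i) =
        (q i : Laurent) * (expBase (c (e i).1) : Laurent) := fun i => by
      rcases eq_or_ne ((e i).2 : ℕ) 0 with h0 | h0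
      · rw [eiLin, if_pos h0, eiEval, eval₂Hom_C]
        rfl
      · rw [hq0 i h0, Rat.cast_zero, zero_mul, zero_mul]
    simp only [eiEval] at hterm
    simp only [hterm] at hθ
    have ha0 : a = 0 := by
      have h := congrArg (fun y : Laurent => y.coeff 0) hθ
      simp only [HahnSeries.coeff_add, HahnSeries.coeff_sum, coeff_zero_euler,
        ratCast_eq_C, HahnSeries.C_mul_eq_smul, HahnSeries.coeff_smul, coeff_zero_expBase,
        smul_zero, Finset.sum_const_zero, add_zero] at h
      exact (coeff_zero_ratCast a).symm.trans h.symm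
    refine ⟨ha0, x, ?_⟩
    suffices hall : ∀ i, q i = 0 by
      rw [hQe]
      simp [hall]
    intro i
    by_contra hi
    have hi0 : ((e i).2 : ℕ) = 0 := by
      by_contra h
      exact hi (hq0 i h)
    have h0 := coeff_eq_zero_of_euler_eq (ι := {l : Fin m // ((e l).2 : ℕ) = 0})
      (c := fun l => c (e l).1) (fun l => hc0 _) (fun l l' h => Subtype.ext (e.injective
        (Prod.ext (hci h) (Fin.ext (l.2.trans l'.2.symm)))))
      (a := fun l => -q l) (r := (x : Laurent)) x.2 ?_
    · exact hi (neg_eq_zero.1 (congrFun h0 ⟨i, hi0⟩))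
    rw [eq_neg_of_add_eq_zero_left (hθ.trans (by rw [ha0, Rat.cast_zero])),
      ← Finset.sum_neg_distrib, ← Finset.sum_filter_of_ne (p := fun l => ((e l).2 : ℕ) = 0)
        (fun l _ hl => ?_), Finset.sum_subtype (p := fun l => ((e l).2 : ℕ) = 0) _
          (fun l => by simp)]
    · refine Finset.sum_congr rfl fun l _ => ?_
      rw [← ratCast_eq_C, Rat.cast_neg, neg_mul, coe_expBase]
    · by_contra h
      exact hl (by rw [hq0 l h, Rat.cast_zero, zero_mul, neg_zero])

omit hc0 hci

/-- The weight `∑ (k + 1) μ (a, k)`. -/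
def eiWeight (μ : Fin m →₀ ℕ) : ℕ := ∑ i : Fin m, (((e i).2 : ℕ) + 1) * μ i

theorem eiWeight_add (μ ν : Fin m →₀ ℕ) :
    eiWeight e (μ + ν) = eiWeight e μ + eiWeight e ν := by
  simp [eiWeight, mul_add, Finset.sum_add_distrib]

theorem eiWeight_single (i : Fin m) :
    eiWeight e (Finsupp.single i 1) = ((e i).2 : ℕ) + 1 := by
  classical
  rw [eiWeight, Finset.sum_eq_single i (fun l _ hl => by rw [Finsupp.single_eq_of_ne hl, mul_zero])
    (fun h => absurd (mem_univ _) h), Finsupp.single_eq_same, mul_one]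

theorem coeff_eiDelta {W : ℕ} {Q : MvPolynomial (Fin m) expField}
    (hW : ∀ μ ∈ Q.support, eiWeight e μ ≤ W) {ν : Fin m →₀ ℕ} (hν : W ≤ eiWeight e ν) :
    (eiDelta e c Q).coeff ν = eulerK (Q.coeff ν) := by
  classical
  rw [eiDelta, delta, coeff_add, map_one, one_mul, coeff_coeffDer eulerK_zero, coeff_sum,
    Finset.sum_eq_zero (fun i _ => ?_), add_zero]
  by_contra h
  obtain ⟨a, ha, b, hb, rfl⟩ := Finset.mem_add.1 (support_mul _ _ (mem_support_iff.2 h))
  rw [mem_support_iff, coeff_pderiv] at hb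
  have h1 := hW _ (mem_support_iff.2 (left_ne_zero_of_mul hb))
  rw [eiWeight_add, eiWeight_single] at h1
  rw [eiWeight_add] at hν
  have h2 : eiWeight e a ≤ ((e i).2 : ℕ) := by
    rw [eiLin] at ha
    split_ifs at ha with h0
    · rw [mem_support_iff, coeff_C] at ha
      split_ifs at ha with ha0
      · simp [← ha0, eiWeight]
      · simp at ha
    · rw [support_X, Finset.mem_singleton] at ha
      rw [ha, eiWeight_single, Equiv.apply_symm_apply]
      simp
      omega
  omega

include hc0 hci

/-- **The `E_k (c a z)` are independent over `ℚ(z, exp z)`.** -/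
theorem eq_zero_of_eiEval {Q : MvPolynomial (Fin m) expField} (h : eiEval e c Q = 0) : Q = 0 := by
  classical
  suffices H : ∀ W : ℕ, ∀ Q : MvPolynomial (Fin m) expField, (∀ μ ∈ Q.support, eiWeight e μ < W) →
      eiEval e c Q = 0 → Q = 0 from
    H (Q.support.sup (eiWeight e) + 1) Q (fun μ hμ => Nat.lt_succ_of_le (Finset.le_sup hμ)) h
  intro W
  induction W with
  | zero =>
    intro Q hQ _
    exact support_eq_empty.1
      (Finset.eq_empty_of_forall_notMem fun μ hμ => absurd (hQ μ hμ) (by omega))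
  | succ W ihW =>
    suffices H : ∀ n : ℕ, ∀ Q : MvPolynomial (Fin m) expField,
        (∀ μ ∈ Q.support, eiWeight e μ ≤ W) →
        (Q.support.filter fun μ => eiWeight e μ = W).card ≤ n → eiEval e c Q = 0 → Q = 0 from
      fun Q hQ h => H _ Q (fun μ hμ => Nat.le_of_lt_succ (hQ μ hμ)) le_rfl h
    intro n
    induction n with
    | zero =>
      intro Q hQ hn h
      refine ihW Q (fun μ hμ => lt_of_le_of_ne (hQ μ hμ) fun he => ?_) h
      have h1 : 0 < (Q.support.filter fun μ => eiWeight e μ = W).card :=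
        Finset.card_pos.2 ⟨μ, Finset.mem_filter.2 ⟨hμ, he⟩⟩
      omega
    | succ n ihn =>
      intro Q hQ hn h
      rcases (Q.support.filter fun μ => eiWeight e μ = W).eq_empty_or_nonempty with h0 | ⟨π, hπ⟩
      · exact ihn Q hQ (by rw [h0, Finset.card_empty]; exact Nat.zero_le _) h
      rw [Finset.mem_filter, mem_support_iff] at hπ
      obtain ⟨P, hP⟩ : ∃ P, P = C (Q.coeff π)⁻¹ * Q := ⟨_, rfl⟩
      have hPs : ∀ {μ}, μ ∈ P.support → μ ∈ Q.support := fun hμ => by
        rw [hP, mem_support_iff, coeff_C_mul] at hμ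
        exact mem_support_iff.2 (right_ne_zero_of_mul hμ)
      have hPW : ∀ μ ∈ P.support, eiWeight e μ ≤ W := fun μ hμ => hQ μ (hPs hμ)
      have hev : eiEval e c P = 0 := by rw [hP, map_mul, h, mul_zero]
      have hDs : ∀ μ ∈ (eiDelta e c P).support, W ≤ eiWeight e μ →
          μ ∈ Q.support ∧ eiWeight e μ = W ∧ μ ≠ π := fun μ hμ hμW => by
        rw [mem_support_iff, coeff_eiDelta e c hPW hμW] at hμ
        have hμP : μ ∈ P.support := mem_support_iff.2 fun h0 => hμ (by rw [h0, eulerK_zero])
        refine ⟨hPs hμP, le_antisymm (hPW μ hμP) hμW, fun he => hμ ?_⟩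
        rw [he, hP, coeff_C_mul, inv_mul_cancel₀ hπ.1]
        simpa using eulerK_natCast 1
      have hzero : eiDelta e c P = 0 := by
        refine ihn _ (fun μ hμ => ?_) ?_ (by rw [eiEval_eiDelta, hev, map_zero])
        · by_contra hlt
          have h2 := hDs μ hμ (le_of_not_ge hlt)
          omega
        · refine le_trans (Finset.card_le_card (t :=
            (Q.support.filter fun μ => eiWeight e μ = W).erase π) fun μ hμ => ?_) ?_
          · rw [Finset.mem_filter] at hμ
            have h2 := hDs μ hμ.1 hμ.2.ge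
            exact Finset.mem_erase.2 ⟨h2.2.2, Finset.mem_filter.2 ⟨h2.1, h2.2.1⟩⟩
          · rw [Finset.card_erase_of_mem (Finset.mem_filter.2 ⟨mem_support_iff.2 hπ.1, hπ.2⟩)]
            omega
      obtain ⟨r, hr⟩ := (eq_C_of_eiDelta_eq e c hc0 hci _ P le_rfl 0
        (by rw [hzero, Rat.cast_zero, map_zero])).2
      rw [hr, eiEval, eval₂Hom_C] at hev
      rw [show r = 0 from Subtype.ext hev, map_zero, hP, mul_eq_zero,
        map_eq_zero_iff _ (C_injective _ _),
        inv_eq_zero] at hr
      exact hr.resolve_left hπ.1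

omit hc0 hci

/-- **`exp z` and the `E_k (c a z)` are algebraically independent over `ℚ(z)`.** -/
theorem multiples_independent (hc0 : ∀ a, c a ≠ 0) (hci : Function.Injective c)
    {p : MvPolynomial (Fin (m + 1)) ℚ[X]}
    (hp : eval₂ Polynomial.coeToPowerSeries.ringHom (Fin.cons (PowerSeries.exp ℚ) fun i : Fin m =>
      PowerSeries.rescale (c (e i).1 : ℚ) (eiSeries (((e i).2 : ℕ) + 1))) p = 0) : p = 0 := by
  obtain ⟨Ψ, hΨ⟩ : ∃ Ψ : MvPolynomial (Fin (m + 1)) ℚ[X] →+* MvPolynomial (Fin m) (ℚ[X])[X],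
      Ψ = eval₂Hom (C.comp Polynomial.C) (Fin.cons (C Polynomial.X) X) := ⟨_, rfl⟩
  obtain ⟨ρ, hρ⟩ : ∃ ρ : (ℚ[X])[X] →+* expField, ρ = evExp.codRestrict expField evExp_mem :=
    ⟨_, rfl⟩
  have hρi : Function.Injective ρ := fun x y hxy =>
    evExp_injective (by simpa [hρ] using congrArg Subtype.val hxy)
  have hinv : ∀ x, eval₂Hom (Polynomial.eval₂RingHom C (X 0)) (fun i => X i.succ) (Ψ x) = x := by
    intro x
    rw [← RingHom.comp_apply]
    refine RingHom.congr_fun (f := _) (g := RingHom.id _) ?_ x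
    refine MvPolynomial.ringHom_ext (fun a => by simp [hΨ]) fun i => ?_
    refine Fin.cases ?_ (fun k => ?_) i <;> simp [hΨ]
  have hev : eiEval e c (MvPolynomial.map ρ (Ψ p)) = HahnSeries.ofPowerSeries ℤ ℚ (eval₂
      Polynomial.coeToPowerSeries.ringHom (Fin.cons (PowerSeries.exp ℚ) fun i : Fin m =>
        PowerSeries.rescale (c (e i).1 : ℚ) (eiSeries (((e i).2 : ℕ) + 1))) p) := by
    rw [← coe_eval₂Hom, ← RingHom.comp_apply, ← RingHom.comp_apply, ← RingHom.comp_apply]
    congr 1
    refine MvPolynomial.ringHom_ext (fun a => ?_) fun i => ?_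
    · simp [hΨ, hρ, eiEval, evExp_C]
    · refine Fin.cases ?_ (fun k => ?_) i
      · simp [hΨ, hρ, eiEval, evExp_X]
      · simp [hΨ, hρ, eiEval, multSeries]
  rw [hp, map_zero] at hev
  have h1 := MvPolynomial.map_injective ρ hρi
    ((eq_zero_of_eiEval e c hc0 hci hev).trans (map_zero _).symm)
  rw [← hinv p, h1, map_zero]

/-- **`exp, E_1, …, E_s` are algebraically independent over `ℚ(z)`.** -/
theorem eiSeries_independent {k : ℕ} {p : MvPolynomial (Fin (k + 1)) ℚ[X]}
    (hp : eval₂ Polynomial.coeToPowerSeries.ringHom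
      (Fin.cons (PowerSeries.exp ℚ) fun i : Fin k => eiSeries ((i : ℕ) + 1)) p = 0) : p = 0 :=
  multiples_independent (r := 1) (s := k) (Equiv.uniqueProd (Fin k) (Fin 1)).symm (fun _ => 1)
    (fun _ => one_ne_zero) (Function.injective_of_subsingleton _) (by simpa using hp)

end FA.ExponentialIntegral
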