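import Mathlib.MeasureTheory.Integral.IntervalIntegral.FundThmCalculus
import Fermat.Agent.Apery.Chebyshev
import Fermat.Agent.SiegelShidlovskii.DependentRank
import Fermat.Agent.SiegelShidlovskii.IncompleteGammaIntegral
import Fermat.Agent.ExponentialIntegral.Independence

/-!
# The values of the exponential integrals

The `E_k` are E-functions with `z E_(k+1)' = E_k`, so by the theorem of Siegel and Shidlovskii the
numbers `exp α, E_1 α, …, E_s α` are algebraically independent for every algebraic `α ≠ 0`.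
-/

set_option autoImplicit false

noncomputable section

namespace FA.ExponentialIntegral

open Finset MeasureTheory
open scoped Nat
open FA.SiegelShidlovskii (IsEFunction cval cval_ofReal)

theorem isEFunction_eiSeries (k : ℕ) : IsEFunction (eiSeries k) := by
  obtain ⟨C₀, -, hlcm⟩ := FA.Apery.exists_lcmUpto_le
  obtain ⟨C₁, hC₁⟩ : ∃ C₁ : ℕ, ∀ n, Nat.lcmUpto n ≤ C₁ * 4 ^ n := ⟨⌈C₀⌉₊, fun n => by
    rw [← Nat.cast_le (α := ℝ)]
    push_cast
    exact (hlcm n).trans (mul_le_mul (Nat.le_ceil _) (pow_le_pow_left₀ (by norm_num)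
      (by norm_num) n) (by positivity) (Nat.cast_nonneg _))⟩
  obtain ⟨C, hC⟩ : ∃ C, C = ((C₁ + 1) * 4) ^ k := ⟨_, rfl⟩
  have hC1 : 1 ≤ C := hC ▸ Nat.one_le_pow _ _ (by omega)
  refine ⟨C, fun n => le_trans ?_ (one_le_pow₀ (Nat.one_le_cast.2 hC1)), fun N =>
    ⟨Nat.lcmUpto N ^ k, pow_pos (Nat.lcmUpto_pos N) k, ?_, fun n hn => ?_⟩⟩
  · rw [eiSeries, PowerSeries.coeff_mk]
    split_ifs with h
    · simp
    · rw [mul_inv, ← mul_assoc, mul_inv_cancel₀ (Nat.cast_ne_zero.2 n.factorial_ne_zero), one_mul,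
        abs_inv, abs_pow, Nat.abs_cast]
      exact inv_le_one_of_one_le₀ (one_le_pow₀ (Nat.one_le_cast.2 (Nat.one_le_iff_ne_zero.2 h)))
  · rw [hC, ← pow_mul, mul_comm k, pow_mul]
    refine Nat.pow_le_pow_left ((hC₁ N).trans ?_) k
    rw [mul_pow, pow_succ 4]
    refine Nat.mul_le_mul ?_ (Nat.le_mul_of_pos_right _ (by norm_num))
    exact le_trans (Nat.le_succ _) (Nat.le_self_pow (Nat.succ_ne_zero N) _)
  · rw [eiSeries, PowerSeries.coeff_mk]
    split_ifs with h
    · exact ⟨0, by simp⟩
    · obtain ⟨e, he⟩ : n ∣ Nat.lcmUpto N :=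
        Finset.dvd_lcm (f := id) (Finset.mem_Icc.2 ⟨Nat.one_le_iff_ne_zero.2 h, hn⟩)
      refine ⟨((e ^ k : ℕ) : ℤ), ?_⟩
      have hn0 : (n : ℚ) ≠ 0 := Nat.cast_ne_zero.2 h
      rw [he, mul_inv, ← mul_assoc (n ! : ℚ), mul_inv_cancel₀
        (Nat.cast_ne_zero.2 n.factorial_ne_zero), one_mul]
      push_cast
      rw [mul_pow]
      field_simp

/-- The value of `E_k` without the constant term. -/
theorem cval_eiSeries (k : ℕ) (z : ℂ) :
    cval (eiSeries k) z = ∑' n : ℕ, z ^ (n + 1) / (((n + 1)! : ℂ) * ((n + 1 : ℕ) : ℂ) ^ k) := by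
  have h := ((isEFunction_eiSeries k).expGrowth.chasVal z).summable
  rw [cval, h.tsum_eq_zero_add]
  simp only [eiSeries, PowerSeries.coeff_mk, if_true, Rat.cast_zero, zero_mul, zero_add]
  refine tsum_congr fun n => ?_
  rw [if_neg (Nat.succ_ne_zero n)]
  push_cast
  ring

theorem cval_eiSeries_zero (z : ℂ) : cval (eiSeries 0) z = Complex.exp z - 1 := by
  rw [← FA.SiegelShidlovskii.cval_exp, cval_eiSeries, cval,
    (FA.SiegelShidlovskii.isEFunction_exp.expGrowth.chasVal z).summable.tsum_eq_zero_add]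
  rw [PowerSeries.coeff_exp]
  simp only [Nat.factorial_zero, Nat.cast_one, div_one, map_one, Rat.cast_one, pow_zero, mul_one,
    add_sub_cancel_left]
  refine tsum_congr fun n => ?_
  rw [PowerSeries.coeff_exp]
  simp
  ring

/-- **The values are algebraically independent.** -/
theorem algebraicIndependent_eiValues {α : ℂ} (hα : IsAlgebraic ℚ α) (hα0 : α ≠ 0) (s : ℕ) :
    AlgebraicIndependent ℚ (Fin.cons (Complex.exp α)
      fun i : Fin s => cval (eiSeries ((i : ℕ) + 1)) α) := by
  obtain ⟨f, hf⟩ : ∃ f : Fin (s + 1) → PowerSeries ℚ,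
      f = Fin.cons (PowerSeries.exp ℚ) fun i : Fin s => eiSeries ((i : ℕ) + 1) := ⟨_, rfl⟩
  have hE : ∀ a, IsEFunction (f a) := fun a => by
    refine Fin.cases ?_ (fun i => ?_) a
    · simpa [hf] using FA.SiegelShidlovskii.isEFunction_exp
    · simpa [hf] using isEFunction_eiSeries ((i : ℕ) + 1)
  have h := FA.SiegelShidlovskii.algebraicIndependent_values Polynomial.X
    (fun a : Fin (s + 1) => if (a : ℕ) = 1 then -1 else 0)
    (Matrix.of fun a b : Fin (s + 1) =>
      if (a : ℕ) = 0 then (if (b : ℕ) = 0 then Polynomial.X else 0)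
      else if (b : ℕ) + 1 = a then 1 else 0) (f := f) (fun a => ?_) hE
    (fun p hp => eiSeries_independent (hf ▸ hp)) hα hα0 (by simpa using hα0)
  · convert h using 1
    funext a
    refine Fin.cases ?_ (fun i => ?_) a
    · simp [hf, FA.SiegelShidlovskii.cval_exp]
    · simp [hf]
  refine Fin.cases ?_ (fun i => ?_) a
  · simp [hf, PowerSeries.derivative_exp, Fin.sum_univ_succ]
  · rw [Finset.sum_eq_single i.castSucc (fun b _ hb => ?_) (fun h => absurd (mem_univ _) h)]
    · simp only [hf, Matrix.of_apply, Fin.val_succ, Fin.cons_succ, Polynomial.coe_X,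
        Fin.val_castSucc,
        Nat.succ_ne_zero, if_false, if_true, Polynomial.coe_one, one_mul, X_mul_derivative_eiSeries]
      rcases i with ⟨i, hi⟩
      rcases i with _ | i
      · simp [eiSeries_zero]
        ring_nf
      · rw [if_neg (by simp)]
        simp only [Polynomial.coe_zero, zero_add]
        rw [show (⟨i + 1, hi⟩ : Fin s).castSucc = (⟨i, by omega⟩ : Fin s).succ from rfl,
          Fin.cons_succ]
    · have h1 : (b : ℕ) ≠ i := fun h => hb (Fin.ext h)
      simp [Fin.val_succ, h1]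

theorem transcendental_eiValue {α : ℂ} (hα : IsAlgebraic ℚ α) (hα0 : α ≠ 0) (k : ℕ) :
    Transcendental ℚ (cval (eiSeries (k + 1)) α) := by
  have h := (algebraicIndependent_eiValues hα hα0 (k + 1)).transcendental
    (Fin.succ ⟨k, Nat.lt_succ_self k⟩)
  rwa [Fin.cons_succ] at h

theorem integral_eq_val (x : ℝ) :
    ∫ t in (0 : ℝ)..x, (Real.exp t - 1) / t = FA.SiegelShidlovskii.val (eiSeries 1) x := by
  have hd := (isEFunction_eiSeries 1).expGrowth
  have hd' := (isEFunction_eiSeries 1).derivative.expGrowth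
  have hcont : Continuous fun t : ℝ =>
      FA.SiegelShidlovskii.val (PowerSeries.derivative ℚ (eiSeries 1)) t :=
    continuous_iff_continuousAt.2 fun t => (hd'.hasDerivAt_val t).continuousAt
  have hFTC := intervalIntegral.integral_eq_sub_of_hasDerivAt (a := (0 : ℝ)) (b := x)
    (fun t _ => hd.hasDerivAt_val t) (hcont.intervalIntegrable _ _)
  have h0 : FA.SiegelShidlovskii.val (eiSeries 1) 0 = 0 := by
    rw [FA.SiegelShidlovskii.val, tsum_eq_single 0 (fun n hn => by rw [zero_pow hn, mul_zero])]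
    simp [eiSeries]
  rw [h0, sub_zero] at hFTC
  rw [← hFTC]
  refine intervalIntegral.integral_congr_ae ?_
  filter_upwards [MeasureTheory.compl_mem_ae_iff.2 (measure_singleton (0 : ℝ))] with t ht _
  have ht0 : t ≠ 0 := ht
  have h := FA.SiegelShidlovskii.cval_mul FA.SiegelShidlovskii.isEFunction_X
    (isEFunction_eiSeries 1).derivative (t : ℂ)
  have hX : cval (PowerSeries.X : PowerSeries ℚ) (t : ℂ) = t := by
    rw [cval, tsum_eq_single 1 (fun n hn => by rw [PowerSeries.coeff_X, if_neg hn]; simp)]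
    simp
  rw [X_mul_derivative_eiSeries, cval_eiSeries_zero, hX, cval_ofReal] at h
  rw [div_eq_iff ht0, ← Complex.ofReal_inj]
  push_cast
  linear_combination h

theorem algebraicIndependent_integral {x : ℝ} (hx : IsAlgebraic ℚ x) (hx0 : x ≠ 0) :
    AlgebraicIndependent ℚ ![Real.exp x, ∫ t in (0 : ℝ)..x, (Real.exp t - 1) / t] := by
  refine FA.SiegelShidlovskii.algebraicIndependent_pair_ofReal ?_
  have h := algebraicIndependent_eiValues (FA.SiegelShidlovskii.isAlgebraic_ofReal_iff'.2 hx)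
    (Complex.ofReal_ne_zero.2 hx0) 1
  convert h using 1
  funext i
  fin_cases i
  · simp
  · simp [integral_eq_val, cval_ofReal]

theorem transcendental_ein {x : ℝ} (hx : IsAlgebraic ℚ x) (hx0 : x ≠ 0) :
    Transcendental ℚ (∫ t in (0 : ℝ)..x, (1 - Real.exp (-t)) / t) := by
  have h := (algebraicIndependent_integral hx.neg (neg_ne_zero.2 hx0)).transcendental 1
  have e : (∫ t in (0 : ℝ)..x, (1 - Real.exp (-t)) / t) =
      -∫ t in (0 : ℝ)..(-x), (Real.exp t - 1) / t := by
    have h1 := intervalIntegral.integral_comp_neg (f := fun t : ℝ => (Real.exp t - 1) / t)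
      (a := 0) (b := x)
    rw [neg_zero] at h1
    rw [← intervalIntegral.integral_symm, ← h1]
    refine intervalIntegral.integral_congr fun t _ => ?_
    simp only [div_neg, ← neg_div, neg_sub]
  intro halg
  rw [e] at halg
  exact h (by simpa using halg.neg)

end FA.ExponentialIntegral
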